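/-
S29/S42 Program A, leaf (A1) (helper80): lattice series with bounded coefficients
`∑' v : ℤ², a v * (v₀ z + v₁)^(-k)` on the upper half-plane: summability, holomorphy,
transformation under `SL(2,ℤ)` and a uniform bound on `{im z ≥ 1}`.
-/
import Mathlib

set_option autoImplicit false

noncomputable section

namespace Fermat.Agent.S29.H80

open UpperHalfPlane EisensteinSeries Filter Topology ModularGroup
open scoped MatrixGroups Manifold Matrix

/-- The lattice series with coefficients `a`. -/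
def cSeries (a : (Fin 2 → ℤ) → ℂ) (k : ℤ) (z : ℍ) : ℂ :=
  ∑' v : Fin 2 → ℤ, a v * eisSummand k v z

theorem norm_coeff_mul_le {a : (Fin 2 → ℤ) → ℂ} (ha : ∀ v, ‖a v‖ ≤ 1) (k : ℤ) (v : Fin 2 → ℤ)
    (z : ℍ) : ‖a v * eisSummand k v z‖ ≤ ‖eisSummand k v z‖ := by
  rw [norm_mul]
  exact mul_le_of_le_one_left (norm_nonneg _) (ha v)

theorem summable_cSeries {a : (Fin 2 → ℤ) → ℂ} (ha : ∀ v, ‖a v‖ ≤ 1) {k : ℤ} (hk : 3 ≤ k)
    (z : ℍ) : Summable fun v : Fin 2 → ℤ => a v * eisSummand k v z :=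
  Summable.of_norm_bounded (summable_norm_eisSummand hk z) (fun v => norm_coeff_mul_le ha k v z)

theorem norm_cSeries_le {a : (Fin 2 → ℤ) → ℂ} (ha : ∀ v, ‖a v‖ ≤ 1) {k : ℤ} (hk : 3 ≤ k)
    (z : ℍ) : ‖cSeries a k z‖ ≤ ∑' v : Fin 2 → ℤ, ‖eisSummand k v z‖ := by
  refine tsum_of_norm_bounded (summable_norm_eisSummand hk z).hasSum
    (fun v => norm_coeff_mul_le ha k v z)

/-- Locally uniform convergence of the partial sums. -/
theorem cSeries_tendstoLocallyUniformly {a : (Fin 2 → ℤ) → ℂ} (ha : ∀ v, ‖a v‖ ≤ 1) {k : ℤ}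
    (hk : 3 ≤ k) :
    TendstoLocallyUniformly (fun (s : Finset (Fin 2 → ℤ)) ↦ (∑ x ∈ s, a x * eisSummand k x ·))
      (cSeries a k ·) Filter.atTop := by
  have hk' : (2 : ℝ) < k := by norm_cast
  have p_sum : Summable fun x : Fin 2 → ℤ ↦ ‖x‖ ^ (-k) :=
    mod_cast (summable_one_div_norm_rpow hk')
  simp only [tendstoLocallyUniformly_iff_forall_isCompact, cSeries]
  intro K hK
  obtain ⟨A, B, hB, HABK⟩ := subset_verticalStrip_of_isCompact hK
  refine (tendstoUniformlyOn_tsum (hu := p_sum.mul_left <| r ⟨⟨A, B⟩, hB⟩ ^ (-k : ℝ))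
    (fun p z hz ↦ ?_)).mono HABK
  refine (norm_coeff_mul_le ha k p z).trans ?_
  simpa only [eisSummand, one_div, ← zpow_neg, norm_zpow, ← Real.rpow_intCast,
    Int.cast_neg] using summand_bound_of_mem_verticalStrip (by positivity) p hB hz

theorem cSeries_tendstoLocallyUniformlyOn {a : (Fin 2 → ℤ) → ℂ} (ha : ∀ v, ‖a v‖ ≤ 1) {k : ℤ}
    (hk : 3 ≤ k) :
    TendstoLocallyUniformlyOn (fun (s : Finset (Fin 2 → ℤ)) ↦
      ↑ₕ(fun (z : ℍ) ↦ ∑ x ∈ s, a x * eisSummand k x z)) (↑ₕ(cSeries a k))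
          Filter.atTop {z : ℂ | 0 < z.im} := by
  rw [← upperHalfPlaneSet, ← range_coe, ← Set.image_univ]
  apply TendstoLocallyUniformlyOn.comp (s := ⊤) _ _ _ (OpenPartialHomeomorph.continuousOn_symm _)
  · simp only [Set.top_eq_univ, tendstoLocallyUniformlyOn_univ]
    apply cSeries_tendstoLocallyUniformly ha hk
  · simp only [IsOpenEmbedding.toOpenPartialHomeomorph_target, Set.top_eq_univ,
      Set.mapsTo_range_iff, Set.mem_univ, forall_const]

/-- **(G1)** the series is holomorphic on `ℍ`. -/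
theorem cSeries_mdifferentiable {a : (Fin 2 → ℤ) → ℂ} (ha : ∀ v, ‖a v‖ ≤ 1) {k : ℤ}
    (hk : 3 ≤ k) : MDiff (cSeries a k) := by
  intro τ
  suffices DifferentiableAt ℂ (↑ₕ(cSeries a k)) τ.1 by
    convert!
      MDifferentiableAt.comp τ (DifferentiableAt.mdifferentiableAt this) τ.mdifferentiable_coe
    exact funext fun z ↦ (comp_ofComplex (cSeries a k) z).symm
  refine DifferentiableOn.differentiableAt ?_ (isOpen_upperHalfPlaneSet.mem_nhds τ.2)
  refine (cSeries_tendstoLocallyUniformlyOn ha hk).differentiableOn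
    (Eventually.of_forall fun s ↦ ?_) isOpen_upperHalfPlaneSet
  have h1 : (↑ₕ(fun (z : ℍ) ↦ ∑ x ∈ s, a x * eisSummand k x z))
      = fun w : ℂ => ∑ x ∈ s, a x * (↑ₕ(eisSummand k x)) w := by
    ext w
    simp [Function.comp]
  rw [h1]
  exact DifferentiableOn.fun_sum
    fun x _ ↦ (eisSummand_extension_differentiableOn k x).const_mul (a x)

/-- The permutation of `ℤ²` given by right multiplication by `γ ∈ SL(2,ℤ)`. -/
def vecMulEquiv (γ : SL(2, ℤ)) : (Fin 2 → ℤ) ≃ (Fin 2 → ℤ) where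
  toFun v := v ᵥ* γ
  invFun v := v ᵥ* ↑(γ⁻¹)
  left_inv v := by
    simp_rw [Matrix.vecMul_vecMul, ← Matrix.SpecialLinearGroup.coe_mul, mul_inv_cancel,
      Matrix.SpecialLinearGroup.coe_one, Matrix.vecMul_one]
  right_inv v := by
    simp_rw [Matrix.vecMul_vecMul, ← Matrix.SpecialLinearGroup.coe_mul, inv_mul_cancel,
      Matrix.SpecialLinearGroup.coe_one, Matrix.vecMul_one]

/-- **(G2)** transformation under `SL(2,ℤ)`. -/
theorem cSeries_smul (a : (Fin 2 → ℤ) → ℂ) (k : ℤ) (γ : SL(2, ℤ)) (z : ℍ) :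
    cSeries a k (γ • z) = denom γ z ^ k *
      cSeries (fun v => a (v ᵥ* ↑(γ⁻¹))) k z := by
  unfold cSeries
  simp_rw [eisSummand_SL2_apply]
  rw [← tsum_mul_left]
  rw [← (vecMulEquiv γ).tsum_eq
    (fun w => denom γ z ^ k * (a (w ᵥ* ↑(γ⁻¹)) * eisSummand k w z))]
  refine tsum_congr fun v => ?_
  have h1 : (vecMulEquiv γ v) ᵥ* ↑(γ⁻¹) = v := (vecMulEquiv γ).left_inv v
  have h2 : vecMulEquiv γ v = v ᵥ* γ := rfl
  rw [h1, h2]
  ring

theorem denom_SL (γ : SL(2, ℤ)) (z : ℍ) :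
    denom γ z = ((γ 1 0 : ℤ) : ℂ) * z + ((γ 1 1 : ℤ) : ℂ) := by
  simp [denom]

theorem denom_T_zpow (m : ℤ) (z : ℍ) : denom (T ^ m : SL(2, ℤ)) z = 1 := by
  rw [denom_SL]
  have h := ModularGroup.coe_T_zpow m
  have h10 : (T ^ m : SL(2, ℤ)) 1 0 = 0 := by
    have := congrFun (congrFun h 1) 0
    simpa using this
  have h11 : (T ^ m : SL(2, ℤ)) 1 1 = 1 := by
    have := congrFun (congrFun h 1) 1
    simpa using this
  rw [h10, h11]
  simp

/-- The uniform constant of (G3). -/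
def cBound (k : ℤ) : ℝ :=
  ∑' x : Fin 2 → ℤ, r ⟨⟨1, 1⟩, one_pos⟩ ^ (-k) * ‖x‖ ^ (-k)

theorem norm_cSeries_le_of_mem_verticalStrip {a : (Fin 2 → ℤ) → ℂ} (ha : ∀ v, ‖a v‖ ≤ 1)
    {k : ℤ} (hk : 3 ≤ k) {z : ℍ} (hz : z ∈ verticalStrip 1 1) :
    ‖cSeries a k z‖ ≤ cBound k := by
  refine (norm_cSeries_le ha hk z).trans ?_
  have hk' : (2 : ℝ) < k := by norm_cast
  apply (summable_norm_eisSummand hk _).tsum_le_tsum _
  · exact_mod_cast (summable_one_div_norm_rpow hk').mul_left <| r ⟨⟨1, 1⟩, one_pos⟩ ^ (-k)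
  · intro x
    simp_rw [eisSummand, norm_zpow]
    exact_mod_cast
      summand_bound_of_mem_verticalStrip (lt_trans two_pos hk').le x one_pos hz

/-- **(G3)** a bound uniform in the coefficients on `{1 ≤ im z}`. -/
theorem norm_cSeries_le_cBound {a : (Fin 2 → ℤ) → ℂ} (ha : ∀ v, ‖a v‖ ≤ 1) {k : ℤ}
    (hk : 3 ≤ k) {z : ℍ} (hz : 1 ≤ z.im) : ‖cSeries a k z‖ ≤ cBound k := by
  obtain ⟨n, hn⟩ := ModularGroup_T_zpow_mem_verticalStrip z (N := 1) one_pos
  set w : ℍ := (T ^ ((1 : ℕ) * n)) • z with hw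
  have hzw : z = (T ^ ((1 : ℕ) * n))⁻¹ • w := by rw [hw, inv_smul_smul]
  have hd : denom ((T ^ ((1 : ℕ) * n))⁻¹ : SL(2, ℤ)) w = 1 := by
    rw [← _root_.zpow_neg]
    exact denom_T_zpow _ w
  have hw' : w ∈ verticalStrip 1 1 := by
    have := verticalStrip_anti_right (1 : ℕ) hz hn
    simpa using this
  rw [hzw, cSeries_smul, hd, _root_.one_zpow, one_mul]
  exact norm_cSeries_le_of_mem_verticalStrip (fun v => ha _) hk hw'

end Fermat.Agent.S29.H80
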