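/-
S29/S42 Program A, leaf (A1) (helper80): the Poincare-Eisenstein series of weight 4 with a
unitary character `χ` of `Γ₀(N)` trivial on `±T^n`.
-/
import Fermat.Agent.S29.H80.CoeffSeries

set_option autoImplicit false

noncomputable section

namespace Fermat.Agent.S29.H80

open UpperHalfPlane EisensteinSeries Filter Topology ModularGroup CongruenceSubgroup
open scoped MatrixGroups Manifold Matrix

/-- The bottom row of an element of `SL(2,ℤ)`. -/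
def botRow (γ : SL(2, ℤ)) : Fin 2 → ℤ := fun i => γ 1 i

theorem botRow_mul (γ δ : SL(2, ℤ)) : botRow (γ * δ) = botRow γ ᵥ* δ := by
  ext i
  simp [botRow, Matrix.SpecialLinearGroup.coe_mul, Matrix.mul_apply, Matrix.vecMul,
    dotProduct]

theorem botRow_one : botRow 1 = ![0, 1] := by
  ext i
  fin_cases i <;> simp [botRow]

theorem botRow_neg_one : botRow (-1) = ![0, -1] := by
  ext i
  fin_cases i <;> simp [botRow]

variable (N : ℕ) (χ : Gamma0 N →* ℂˣ)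

/-- The coefficient function of the Eisenstein series with character `χ`: half of `χ(γ)⁻¹` on
the bottom row of `γ ∈ Γ₀(N)`, zero elsewhere. -/
def chiCoeff (v : Fin 2 → ℤ) : ℂ := by
  classical
  exact if h : ∃ γ : Gamma0 N, botRow (γ : SL(2, ℤ)) = v then
    (((χ h.choose : ℂˣ) : ℂ))⁻¹ / 2 else 0

variable {N χ}

theorem chi_eq_of_botRow_eq
    (h2 : ∀ γ : Gamma0 N, (γ : SL(2, ℤ)) 1 0 = 0 → χ γ = 1) {γ δ : Gamma0 N}
    (h : botRow (γ : SL(2, ℤ)) = botRow (δ : SL(2, ℤ))) : χ γ = χ δ := by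
  have h3 : botRow ((γ * δ⁻¹ : Gamma0 N) : SL(2, ℤ)) = ![0, 1] := by
    have e1 : ((γ * δ⁻¹ : Gamma0 N) : SL(2, ℤ)) = (γ : SL(2, ℤ)) * ((δ : SL(2, ℤ)))⁻¹ := rfl
    have e2 : botRow (((δ : SL(2, ℤ))) * ((δ : SL(2, ℤ)))⁻¹) = ![0, 1] := by
      rw [mul_inv_cancel, botRow_one]
    rw [e1, botRow_mul, h, ← botRow_mul, e2]
  have h4 : χ (γ * δ⁻¹) = 1 := by
    apply h2
    have := congrFun h3 0
    simpa [botRow] using this
  have h5 : χ γ = χ (γ * δ⁻¹) * χ δ := by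
    rw [← map_mul, inv_mul_cancel_right]
  rw [h5, h4, one_mul]

theorem chiCoeff_botRow (h2 : ∀ γ : Gamma0 N, (γ : SL(2, ℤ)) 1 0 = 0 → χ γ = 1)
    (γ : Gamma0 N) : chiCoeff N χ (botRow (γ : SL(2, ℤ))) = (((χ γ : ℂˣ) : ℂ))⁻¹ / 2 := by
  classical
  have h : ∃ δ : Gamma0 N, botRow (δ : SL(2, ℤ)) = botRow (γ : SL(2, ℤ)) := ⟨γ, rfl⟩
  unfold chiCoeff
  rw [dif_pos h]
  rw [chi_eq_of_botRow_eq h2 h.choose_spec]

theorem chiCoeff_of_not (v : Fin 2 → ℤ) (h : ¬ ∃ γ : Gamma0 N, botRow (γ : SL(2, ℤ)) = v) :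
    chiCoeff N χ v = 0 := by
  classical
  unfold chiCoeff
  rw [dif_neg h]

theorem norm_chiCoeff_le (h1 : ∀ γ : Gamma0 N, ‖((χ γ : ℂˣ) : ℂ)‖ = 1) (v : Fin 2 → ℤ) :
    ‖chiCoeff N χ v‖ ≤ 1 := by
  classical
  unfold chiCoeff
  split_ifs with h
  · rw [norm_div, norm_inv, h1]
    norm_num
  · simp

theorem chiCoeff_vecMul_inv (h2 : ∀ γ : Gamma0 N, (γ : SL(2, ℤ)) 1 0 = 0 → χ γ = 1)
    (γ : Gamma0 N) (v : Fin 2 → ℤ) :
    chiCoeff N χ (v ᵥ* ↑((γ : SL(2, ℤ))⁻¹)) = ((χ γ : ℂˣ) : ℂ) * chiCoeff N χ v := by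
  by_cases h : ∃ δ : Gamma0 N, botRow (δ : SL(2, ℤ)) = v
  · obtain ⟨δ, rfl⟩ := h
    have e1 : botRow (δ : SL(2, ℤ)) ᵥ* ↑((γ : SL(2, ℤ))⁻¹)
        = botRow ((δ * γ⁻¹ : Gamma0 N) : SL(2, ℤ)) := by
      rw [← botRow_mul]
      rfl
    rw [e1, chiCoeff_botRow h2, chiCoeff_botRow h2, map_mul, map_inv]
    push_cast
    have hne : ((χ γ : ℂˣ) : ℂ) ≠ 0 := Units.ne_zero _
    have hne' : ((χ δ : ℂˣ) : ℂ) ≠ 0 := Units.ne_zero _
    field_simp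
  · have h' : ¬ ∃ δ : Gamma0 N, botRow (δ : SL(2, ℤ)) = v ᵥ* ↑((γ : SL(2, ℤ))⁻¹) := by
      rintro ⟨δ, hδ⟩
      apply h
      refine ⟨δ * γ, ?_⟩
      have e1 : ((δ * γ : Gamma0 N) : SL(2, ℤ)) = (δ : SL(2, ℤ)) * (γ : SL(2, ℤ)) := rfl
      rw [e1, botRow_mul, hδ]
      simp_rw [Matrix.vecMul_vecMul, ← Matrix.SpecialLinearGroup.coe_mul, inv_mul_cancel,
        Matrix.SpecialLinearGroup.coe_one, Matrix.vecMul_one]
    rw [chiCoeff_of_not _ h, chiCoeff_of_not _ h', mul_zero]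

variable (N χ)

/-- The weight-4 Eisenstein series with character `χ`. -/
def eisChi (z : ℍ) : ℂ := cSeries (chiCoeff N χ) 4 z

variable {N χ}

/-- **(E1)** holomorphy. -/
theorem eisChi_mdifferentiable (h1 : ∀ γ : Gamma0 N, ‖((χ γ : ℂˣ) : ℂ)‖ = 1) :
    MDiff (eisChi N χ) :=
  cSeries_mdifferentiable (norm_chiCoeff_le h1) (by norm_num)

/-- **(E2)** transformation law. -/
theorem eisChi_smul (h2 : ∀ γ : Gamma0 N, (γ : SL(2, ℤ)) 1 0 = 0 → χ γ = 1)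
    (γ : Gamma0 N) (z : ℍ) :
    eisChi N χ ((γ : SL(2, ℤ)) • z)
      = ((χ γ : ℂˣ) : ℂ) * denom (γ : SL(2, ℤ)) z ^ 4 * eisChi N χ z := by
  unfold eisChi
  rw [cSeries_smul]
  have h3 : (fun v => chiCoeff N χ (v ᵥ* ↑((γ : SL(2, ℤ))⁻¹)))
      = fun v => ((χ γ : ℂˣ) : ℂ) * chiCoeff N χ v := funext (chiCoeff_vecMul_inv h2 γ)
  rw [h3]
  unfold cSeries
  simp_rw [mul_assoc]
  rw [tsum_mul_left]
  have h4 : denom (γ : SL(2, ℤ)) z ^ (4 : ℤ) = denom (γ : SL(2, ℤ)) z ^ 4 := by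
    norm_cast
  rw [h4]
  ring

/-- **(E4)** every `SL(2,ℤ)`-translate has moderate growth: an explicit bound. -/
theorem norm_eisChi_smul_le (h1 : ∀ γ : Gamma0 N, ‖((χ γ : ℂˣ) : ℂ)‖ = 1)
    (g : SL(2, ℤ)) {z : ℍ} (hz : 1 ≤ z.im) :
    ‖eisChi N χ (g • z)‖ ≤ cBound 4 * ‖denom g z‖ ^ 4 := by
  unfold eisChi
  rw [cSeries_smul, norm_mul, mul_comm]
  have h3 := norm_cSeries_le_cBound (a := fun v => chiCoeff N χ (v ᵥ* ↑(g⁻¹)))
    (fun v => norm_chiCoeff_le h1 _) (k := 4) (by norm_num) hz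
  have h4 : ‖denom g z ^ (4 : ℤ)‖ = ‖denom g z‖ ^ 4 := by
    rw [norm_zpow]
    norm_cast
  rw [h4]
  exact mul_le_mul_of_nonneg_right h3 (by positivity)

end Fermat.Agent.S29.H80
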