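/-
S29/S42 Program A, leaf (A1) (helper80): the Eisenstein series with character tends to `1`
at `i∞`.
-/
import Fermat.Agent.S29.H80.EisChi

set_option autoImplicit false

noncomputable section

namespace Fermat.Agent.S29.H80

open UpperHalfPlane EisensteinSeries Filter Topology ModularGroup CongruenceSubgroup
open scoped MatrixGroups Manifold Matrix

variable {N : ℕ} {χ : Gamma0 N →* ℂˣ}

theorem T_zpow_one_zero (n : ℤ) : (T ^ n : SL(2, ℤ)) 1 0 = 0 := by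
  have h := ModularGroup.coe_T_zpow n
  have := congrFun (congrFun h 1) 0
  simpa using this

theorem T_zpow_mem_Gamma0 (N : ℕ) (n : ℤ) : (T ^ n : SL(2, ℤ)) ∈ Gamma0 N := by
  rw [Gamma0_mem, T_zpow_one_zero]
  simp

theorem neg_one_mem_Gamma0 (N : ℕ) : (-1 : SL(2, ℤ)) ∈ Gamma0 N := by
  rw [Gamma0_mem]
  simp

/-- `eisChi` is invariant under integer translations. -/
theorem eisChi_T_zpow_smul (h2 : ∀ γ : Gamma0 N, (γ : SL(2, ℤ)) 1 0 = 0 → χ γ = 1)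
    (n : ℤ) (z : ℍ) : eisChi N χ ((T ^ n : SL(2, ℤ)) • z) = eisChi N χ z := by
  have h := eisChi_smul h2 (⟨T ^ n, T_zpow_mem_Gamma0 N n⟩ : Gamma0 N) z
  have h3 : χ (⟨T ^ n, T_zpow_mem_Gamma0 N n⟩ : Gamma0 N) = 1 := h2 _ (T_zpow_one_zero n)
  rw [h3] at h
  have h4 : denom (T ^ n : SL(2, ℤ)) z = 1 := denom_T_zpow n z
  simp only [h4] at h
  simpa using h

/-- Coefficients at vectors with vanishing first entry: only `(0, ±1)` contribute. -/
theorem chiCoeff_eq_zero_of_zero (v : Fin 2 → ℤ) (h0 : v 0 = 0) (h1 : v ≠ ![0, 1])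
    (h2 : v ≠ ![0, -1]) : chiCoeff N χ v = 0 := by
  apply chiCoeff_of_not
  rintro ⟨γ, hγ⟩
  have hdet := Matrix.SpecialLinearGroup.det_coe (γ : SL(2, ℤ))
  rw [Matrix.det_fin_two] at hdet
  have e0 : (γ : SL(2, ℤ)) 1 0 = 0 := by
    have := congrFun hγ 0
    simpa [botRow, h0] using this
  have e1 : (γ : SL(2, ℤ)) 1 1 = v 1 := by
    have := congrFun hγ 1
    simpa [botRow] using this
  have hdet' : ((γ : SL(2, ℤ)) 0 0) * v 1 = 1 := by
    have e0' : ((γ : SL(2, ℤ)) : Matrix (Fin 2) (Fin 2) ℤ) 1 0 = 0 := e0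
    have e1' : ((γ : SL(2, ℤ)) : Matrix (Fin 2) (Fin 2) ℤ) 1 1 = v 1 := e1
    rw [e0', e1'] at hdet
    simpa using hdet
  rcases Int.eq_one_or_neg_one_of_mul_eq_one (by rw [mul_comm]; exact hdet') with h | h
  · apply h1
    ext i
    fin_cases i
    · simpa using h0
    · simpa using h
  · apply h2
    ext i
    fin_cases i
    · simpa using h0
    · simpa using h

theorem chiCoeff_zero_one (h2 : ∀ γ : Gamma0 N, (γ : SL(2, ℤ)) 1 0 = 0 → χ γ = 1) :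
    chiCoeff N χ ![0, 1] = 1 / 2 := by
  have h := chiCoeff_botRow h2 (1 : Gamma0 N)
  have e : botRow (((1 : Gamma0 N)) : SL(2, ℤ)) = ![0, 1] := botRow_one
  rw [e, map_one] at h
  simpa using h

theorem chiCoeff_zero_neg_one (h2 : ∀ γ : Gamma0 N, (γ : SL(2, ℤ)) 1 0 = 0 → χ γ = 1) :
    chiCoeff N χ ![0, -1] = 1 / 2 := by
  have h := chiCoeff_botRow h2 (⟨-1, neg_one_mem_Gamma0 N⟩ : Gamma0 N)
  have e : botRow (((⟨-1, neg_one_mem_Gamma0 N⟩ : Gamma0 N)) : SL(2, ℤ)) = ![0, -1] :=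
    botRow_neg_one
  have h3 : χ (⟨-1, neg_one_mem_Gamma0 N⟩ : Gamma0 N) = 1 := by
    apply h2
    simp
  rw [e, h3] at h
  simpa using h

/-- The series without its constant part. -/
theorem eisChi_sub_one (h1 : ∀ γ : Gamma0 N, ‖((χ γ : ℂˣ) : ℂ)‖ = 1)
    (h2 : ∀ γ : Gamma0 N, (γ : SL(2, ℤ)) 1 0 = 0 → χ γ = 1) (z : ℍ) :
    eisChi N χ z - 1 = ∑' v : Fin 2 → ℤ,
      (if v 0 = 0 then 0 else chiCoeff N χ v * eisSummand 4 v z) := by
  classical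
  set f : (Fin 2 → ℤ) → ℂ := fun v => chiCoeff N χ v * eisSummand 4 v z with hf
  set f₀ : (Fin 2 → ℤ) → ℂ := fun v => if v 0 = 0 then f v else 0 with hf₀
  have hsum : HasSum f (eisChi N χ z) :=
    (summable_cSeries (norm_chiCoeff_le h1) (by norm_num) z).hasSum
  have hne : (![0, 1] : Fin 2 → ℤ) ≠ ![0, -1] := by
    intro h
    have := congrFun h 1
    simp at this
  have h0 : HasSum f₀ 1 := by
    have h3 : ∀ b ∉ ({![0, 1], ![0, -1]} : Finset (Fin 2 → ℤ)), f₀ b = 0 := by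
      intro b hb
      simp only [Finset.mem_insert, Finset.mem_singleton, not_or] at hb
      simp only [hf₀, hf]
      split_ifs with hb0
      · rw [chiCoeff_eq_zero_of_zero b hb0 hb.1 hb.2, zero_mul]
      · rfl
    have h4 : HasSum f₀ (∑ b ∈ ({![0, 1], ![0, -1]} : Finset (Fin 2 → ℤ)), f₀ b) :=
      hasSum_sum_of_ne_finset_zero h3
    have h5 : ∑ b ∈ ({![0, 1], ![0, -1]} : Finset (Fin 2 → ℤ)), f₀ b = 1 := by
      rw [Finset.sum_pair hne]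
      simp only [hf₀, hf]
      rw [chiCoeff_zero_one h2, chiCoeff_zero_neg_one h2]
      simp [eisSummand]
      norm_num
    rwa [h5] at h4
  have h6 := hsum.sub h0
  have h7 : (fun v => f v - f₀ v)
      = fun v : Fin 2 → ℤ => (if v 0 = 0 then 0 else chiCoeff N χ v * eisSummand 4 v z) := by
    ext v
    simp only [hf₀, hf]
    split_ifs <;> simp
  rw [h7] at h6
  exact h6.tsum_eq.symm

/-- The constant in the rate of convergence at `i∞`. -/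
def c3Bound : ℝ :=
  ∑' x : Fin 2 → ℤ, r ⟨⟨1, 1⟩, one_pos⟩ ^ (-(3 : ℝ)) * ‖x‖ ^ (-(3 : ℝ))

theorem c3Bound_nonneg : 0 ≤ c3Bound :=
  tsum_nonneg fun _ => mul_nonneg (Real.rpow_nonneg (r_pos _).le _)
    (Real.rpow_nonneg (norm_nonneg _) _)

theorem norm_eisChi_sub_one_le (h1 : ∀ γ : Gamma0 N, ‖((χ γ : ℂˣ) : ℂ)‖ = 1)
    (h2 : ∀ γ : Gamma0 N, (γ : SL(2, ℤ)) 1 0 = 0 → χ γ = 1) {z : ℍ}
    (hz : z ∈ verticalStrip 1 1) : ‖eisChi N χ z - 1‖ ≤ c3Bound * (z.im)⁻¹ := by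
  rw [eisChi_sub_one h1 h2]
  have hs : Summable fun x : Fin 2 → ℤ =>
      r ⟨⟨1, 1⟩, one_pos⟩ ^ (-(3 : ℝ)) * ‖x‖ ^ (-(3 : ℝ)) :=
    (summable_one_div_norm_rpow (by norm_num : (2 : ℝ) < 3)).mul_left _
  refine tsum_of_norm_bounded (hs.hasSum.mul_right (z.im)⁻¹) (fun v => ?_)
  have him : 0 < z.im := z.im_pos
  have hg0 : 0 ≤ r ⟨⟨1, 1⟩, one_pos⟩ ^ (-(3 : ℝ)) * ‖v‖ ^ (-(3 : ℝ)) * (z.im)⁻¹ :=
    mul_nonneg (mul_nonneg (Real.rpow_nonneg (r_pos _).le _)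
      (Real.rpow_nonneg (norm_nonneg _) _)) (inv_nonneg.mpr him.le)
  split_ifs with hv
  · simpa using hg0
  · refine (norm_coeff_mul_le (norm_chiCoeff_le h1) 4 v z).trans ?_
    set L : ℝ := ‖(v 0 : ℂ) * (z : ℂ) + (v 1 : ℂ)‖ with hL
    have hLim : z.im ≤ L := by
      have h3 : |((v 0 : ℂ) * (z : ℂ) + (v 1 : ℂ)).im| ≤ L := Complex.abs_im_le_norm _
      have h4 : ((v 0 : ℂ) * (z : ℂ) + (v 1 : ℂ)).im = (v 0 : ℝ) * z.im := by
        simp
      rw [h4, abs_mul, abs_of_pos him] at h3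
      have h5 : (1 : ℝ) ≤ |(v 0 : ℝ)| := by
        have : (1 : ℤ) ≤ |v 0| := Int.one_le_abs hv
        exact_mod_cast this
      nlinarith
    have hLpos : 0 < L := lt_of_lt_of_le him hLim
    have e1 : ‖eisSummand 4 v z‖ = L ^ (-(3 : ℝ)) * L⁻¹ := by
      rw [eisSummand, norm_zpow, ← hL]
      rw [Real.rpow_neg hLpos.le, show ((3 : ℝ)) = ((3 : ℕ) : ℝ) by norm_num,
        Real.rpow_natCast, ← mul_inv, ← pow_succ]
      rw [_root_.zpow_neg]
      norm_cast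
    rw [e1]
    have e2 : L ^ (-(3 : ℝ)) ≤ r ⟨⟨1, 1⟩, one_pos⟩ ^ (-(3 : ℝ)) * ‖v‖ ^ (-(3 : ℝ)) :=
      summand_bound_of_mem_verticalStrip (by norm_num) v one_pos hz
    have e3 : L⁻¹ ≤ (z.im)⁻¹ := inv_anti₀ him hLim
    exact mul_le_mul e2 e3 (inv_nonneg.mpr hLpos.le)
      (mul_nonneg (Real.rpow_nonneg (r_pos _).le _) (Real.rpow_nonneg (norm_nonneg _) _))

/-- **(E3)** the Eisenstein series with character tends to `1` at `i∞`. -/
theorem tendsto_eisChi (h1 : ∀ γ : Gamma0 N, ‖((χ γ : ℂˣ) : ℂ)‖ = 1)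
    (h2 : ∀ γ : Gamma0 N, (γ : SL(2, ℤ)) 1 0 = 0 → χ γ = 1) :
    Tendsto (eisChi N χ) atImInfty (𝓝 1) := by
  rw [Metric.tendsto_nhds]
  intro ε hε
  rw [Filter.Eventually, atImInfty_mem]
  refine ⟨max 1 (c3Bound / ε + 1), fun z hz => ?_⟩
  have hz1 : 1 ≤ z.im := (le_max_left _ _).trans hz
  have hz2 : c3Bound / ε + 1 ≤ z.im := (le_max_right _ _).trans hz
  obtain ⟨n, hn⟩ := ModularGroup_T_zpow_mem_verticalStrip z (N := 1) one_pos
  set w : ℍ := (T ^ ((1 : ℕ) * n)) • z with hw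
  have hw' : w ∈ verticalStrip 1 1 := by
    have := verticalStrip_anti_right (1 : ℕ) hz1 hn
    simpa using this
  have him : w.im = z.im := by
    rw [hw]
    exact ModularGroup.im_T_zpow_smul z _
  have hE : eisChi N χ w = eisChi N χ z := eisChi_T_zpow_smul h2 _ z
  have h3 := norm_eisChi_sub_one_le h1 h2 hw'
  rw [hE, him] at h3
  show dist (eisChi N χ z) 1 < ε
  rw [dist_eq_norm]
  refine lt_of_le_of_lt h3 ?_
  have hpos : 0 < z.im := z.im_pos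
  rw [← div_eq_mul_inv, div_lt_iff₀ hpos]
  have h4 : c3Bound / ε < z.im := by linarith
  rw [div_lt_iff₀ hε] at h4
  linarith [h4]

/-- The Eisenstein series with character does not vanish near `i∞`. -/
theorem exists_eisChi_ne_zero (h1 : ∀ γ : Gamma0 N, ‖((χ γ : ℂˣ) : ℂ)‖ = 1)
    (h2 : ∀ γ : Gamma0 N, (γ : SL(2, ℤ)) 1 0 = 0 → χ γ = 1) :
    ∃ A : ℝ, ∀ z : ℍ, A ≤ z.im → eisChi N χ z ≠ 0 := by
  have h := (tendsto_eisChi h1 h2).eventually_ne (one_ne_zero)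
  rw [Filter.Eventually, atImInfty_mem] at h
  exact h

end Fermat.Agent.S29.H80
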