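/-
S29/S42 Program A, leaf (A1) (helper80): a holomorphic function on `ℍ` with multiplier `χ`
(a unitary character of `Γ₀(N)` trivial on `±T^n`), of moderate growth at all cusps and not
identically zero: `g = E_χ · E₄² / Δ`.
-/
import Fermat.Agent.S29.H80.EisChiLimit
import Fermat.Agent.S24.H6.PolyInJ

set_option autoImplicit false

noncomputable section

namespace Fermat.Agent.S29.H80

open UpperHalfPlane EisensteinSeries Filter Topology ModularGroup CongruenceSubgroup ModularForm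
open scoped MatrixGroups Manifold Matrix ModularForm
open Fermat.Agent.S24.H6

variable (N : ℕ) (χ : Gamma0 N →* ℂˣ)

/-- The `χ`-automorphic function `E_χ · E₄² / Δ`. -/
def chiAut (z : ℍ) : ℂ := eisChi N χ z * E₄ z ^ 2 / discriminant z

variable {N χ}

theorem chiAut_mdifferentiable (h1 : ∀ γ : Gamma0 N, ‖((χ γ : ℂˣ) : ℂ)‖ = 1) :
    MDiff (chiAut N χ) := by
  have e1 : MDiff (fun τ : ℍ => E₄ τ ^ 2) := (E₄.holo').pow 2
  have e2 := mdiff_inv_of_ne_zero mdiff_discriminant discriminant_ne_zero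
  have e3 := ((eisChi_mdifferentiable h1).mul e1).mul e2
  have e4 : chiAut N χ
      = (eisChi N χ * fun τ : ℍ => E₄ τ ^ 2) * fun τ => (discriminant τ)⁻¹ := by
    ext τ
    simp [chiAut, div_eq_mul_inv]
  rw [e4]
  exact e3

/-- The multiplier of `chiAut` is `χ`. -/
theorem chiAut_smul (h2 : ∀ γ : Gamma0 N, (γ : SL(2, ℤ)) 1 0 = 0 → χ γ = 1)
    (γ : Gamma0 N) (z : ℍ) :
    chiAut N χ ((γ : SL(2, ℤ)) • z) = ((χ γ : ℂˣ) : ℂ) * chiAut N χ z := by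
  have hd : denom (γ : SL(2, ℤ)) z ≠ 0 := denom_ne_zero _ z
  have hΔ := discriminant_ne_zero z
  rw [chiAut, chiAut, eisChi_smul h2, discriminant_smul, E₄_smul]
  field_simp

/-- Explicit moderate growth of all `SL(2,ℤ)`-translates. -/
theorem norm_discriminant_mul_chiAut_smul_le (h1 : ∀ γ : Gamma0 N, ‖((χ γ : ℂˣ) : ℂ)‖ = 1)
    (δ : SL(2, ℤ)) {z : ℍ} (hz : 1 ≤ z.im) :
    ‖discriminant z * chiAut N χ (δ • z)‖ ≤ cBound 4 * ‖E₄ z‖ ^ 2 := by
  have hd : denom δ z ≠ 0 := denom_ne_zero _ z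
  have hΔ := discriminant_ne_zero z
  have e1 : discriminant z * chiAut N χ (δ • z)
      = eisChi N χ (δ • z) * (denom δ z ^ 4)⁻¹ * E₄ z ^ 2 := by
    rw [chiAut, discriminant_smul, E₄_smul]
    field_simp
  rw [e1, norm_mul, norm_mul, norm_pow, norm_inv, norm_pow]
  have h3 := norm_eisChi_smul_le h1 δ hz
  have hdn : 0 < ‖denom δ z‖ ^ 4 := by positivity
  have h4 : ‖eisChi N χ (δ • z)‖ * (‖denom δ z‖ ^ 4)⁻¹ ≤ cBound 4 := by
    rw [← div_eq_mul_inv, div_le_iff₀ hdn]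
    exact h3
  exact mul_le_mul_of_nonneg_right h4 (by positivity)

theorem exists_norm_E₄_le : ∃ A : ℝ, ∀ z : ℍ, A ≤ z.im → ‖E₄ z‖ ≤ 2 := by
  have h := Fermat.Agent.S20.H61.E₄_tendsto_one
  rw [Metric.tendsto_nhds] at h
  have h1 := h 1 one_pos
  rw [Filter.Eventually, atImInfty_mem] at h1
  obtain ⟨A, hA⟩ := h1
  refine ⟨A, fun z hz => ?_⟩
  have h2 : dist (E₄ z) 1 < 1 := hA z hz
  rw [dist_eq_norm] at h2
  have h3 : ‖E₄ z‖ ≤ ‖E₄ z - 1‖ + ‖(1 : ℂ)‖ := by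
    have := norm_add_le (E₄ z - 1) 1
    simpa using this
  rw [norm_one] at h3
  linarith

theorem exists_E₄_ne_zero : ∃ A : ℝ, ∀ z : ℍ, A ≤ z.im → E₄ z ≠ 0 := by
  have h := Fermat.Agent.S20.H61.E₄_tendsto_one.eventually_ne (one_ne_zero)
  rw [Filter.Eventually, atImInfty_mem] at h
  exact h

/-- Moderate growth of all translates, as boundedness at `i∞`. -/
theorem isBoundedAtImInfty_discriminant_mul_chiAut
    (h1 : ∀ γ : Gamma0 N, ‖((χ γ : ℂˣ) : ℂ)‖ = 1) (δ : SL(2, ℤ)) :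
    IsBoundedAtImInfty (fun z : ℍ => discriminant z * chiAut N χ (δ • z)) := by
  rw [UpperHalfPlane.isBoundedAtImInfty_iff]
  obtain ⟨A, hA⟩ := exists_norm_E₄_le
  refine ⟨cBound 4 * 2 ^ 2, max 1 A, fun z hz => ?_⟩
  have hz1 : 1 ≤ z.im := (le_max_left _ _).trans hz
  have hz2 : A ≤ z.im := (le_max_right _ _).trans hz
  refine (norm_discriminant_mul_chiAut_smul_le h1 δ hz1).trans ?_
  have hc : 0 ≤ cBound 4 :=
    tsum_nonneg fun _ => mul_nonneg (zpow_nonneg (r_pos _).le _) (zpow_nonneg (norm_nonneg _) _)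
  have h5 : ‖E₄ z‖ ^ 2 ≤ 2 ^ 2 := pow_le_pow_left₀ (norm_nonneg _) (hA z hz2) 2
  exact mul_le_mul_of_nonneg_left h5 hc

/-- `chiAut` does not vanish near `i∞`. -/
theorem exists_chiAut_ne_zero (h1 : ∀ γ : Gamma0 N, ‖((χ γ : ℂˣ) : ℂ)‖ = 1)
    (h2 : ∀ γ : Gamma0 N, (γ : SL(2, ℤ)) 1 0 = 0 → χ γ = 1) :
    ∃ A : ℝ, ∀ z : ℍ, A ≤ z.im → chiAut N χ z ≠ 0 := by
  obtain ⟨A₁, hA₁⟩ := exists_eisChi_ne_zero h1 h2
  obtain ⟨A₂, hA₂⟩ := exists_E₄_ne_zero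
  refine ⟨max A₁ A₂, fun z hz => ?_⟩
  have hz1 : A₁ ≤ z.im := (le_max_left _ _).trans hz
  have hz2 : A₂ ≤ z.im := (le_max_right _ _).trans hz
  rw [chiAut]
  exact div_ne_zero (mul_ne_zero (hA₁ z hz1) (pow_ne_zero 2 (hA₂ z hz2)))
    (discriminant_ne_zero z)

/-- **Leaf (A1) of Program A, packaged.** For a unitary character `χ` of `Γ₀(N)` which is
trivial on the elements with lower-left entry `0` (i.e. on `±T^n`), there is a holomorphic
function on `ℍ` with multiplier `χ`, whose `SL(2,ℤ)`-translates times `Δ` are bounded at `i∞`,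
and which does not vanish near `i∞`. -/
theorem exists_automorphic (N : ℕ) (χ : Gamma0 N →* ℂˣ)
    (h1 : ∀ γ : Gamma0 N, ‖((χ γ : ℂˣ) : ℂ)‖ = 1)
    (h2 : ∀ γ : Gamma0 N, (γ : SL(2, ℤ)) 1 0 = 0 → χ γ = 1) :
    ∃ g : ℍ → ℂ, MDiff g ∧
      (∀ (γ : Gamma0 N) (z : ℍ), g ((γ : SL(2, ℤ)) • z) = ((χ γ : ℂˣ) : ℂ) * g z) ∧
      (∀ δ : SL(2, ℤ), IsBoundedAtImInfty (fun z : ℍ => discriminant z * g (δ • z))) ∧
      (∃ A : ℝ, ∀ z : ℍ, A ≤ z.im → g z ≠ 0) :=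
  ⟨chiAut N χ, chiAut_mdifferentiable h1, chiAut_smul h2,
    isBoundedAtImInfty_discriminant_mul_chiAut h1, exists_chiAut_ne_zero h1 h2⟩

end Fermat.Agent.S29.H80
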