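/-
S29/S42 Program A (helper80): the character `ζ_p^ψ` of `Γ₀(N)` attached to a homomorphism
`ψ : Γ₀(N) → ℤ/p`, and the hypotheses of the Eisenstein series with character for it.
-/
import Mathlib
import Fermat.Prelude.Def_ModularCurve_PeriodMap

set_option autoImplicit false

noncomputable section

namespace Fermat.Agent.S29.H80

open CongruenceSubgroup ModularCurve.Period
open scoped MatrixGroups

variable {N : ℕ} (p : ℕ) [NeZero p]

/-- The character `γ ↦ exp(2πi ψ(γ)/p)` of `Γ₀(N)` attached to `ψ : Γ₀(N) → ℤ/p`. -/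
def psiChar (ψ : Additive (Gamma0 N) →+ ZMod p) : Gamma0 N →* ℂˣ where
  toFun γ := Circle.toUnits (ZMod.toCircle (ψ (Additive.ofMul γ)))
  map_one' := by simp
  map_mul' γ δ := by
    rw [ofMul_mul, map_add, AddChar.map_add_eq_mul, map_mul]

variable {p}

theorem psiChar_apply (ψ : Additive (Gamma0 N) →+ ZMod p) (γ : Gamma0 N) :
    psiChar p ψ γ = Circle.toUnits (ZMod.toCircle (ψ (Additive.ofMul γ))) := rfl

theorem coe_psiChar (ψ : Additive (Gamma0 N) →+ ZMod p) (γ : Gamma0 N) :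
    ((psiChar p ψ γ : ℂˣ) : ℂ) = ZMod.stdAddChar (ψ (Additive.ofMul γ)) := rfl

theorem coe_psiChar_eq_exp (ψ : Additive (Gamma0 N) →+ ZMod p) (γ : Gamma0 N) :
    ((psiChar p ψ γ : ℂˣ) : ℂ)
      = Complex.exp (2 * Real.pi * Complex.I * ((ψ (Additive.ofMul γ)).val : ℂ) / p) := by
  rw [coe_psiChar, ZMod.stdAddChar_apply, ZMod.toCircle_apply]

/-- (h1) the character is unitary. -/
theorem norm_psiChar (ψ : Additive (Gamma0 N) →+ ZMod p) (γ : Gamma0 N) :
    ‖((psiChar p ψ γ : ℂˣ) : ℂ)‖ = 1 := by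
  rw [coe_psiChar, ZMod.stdAddChar_apply]
  exact Circle.norm_coe _

/-- The character has exponent `p`. -/
theorem psiChar_pow (ψ : Additive (Gamma0 N) →+ ZMod p) (γ : Gamma0 N) :
    psiChar p ψ γ ^ p = 1 := by
  rw [psiChar_apply, ← map_pow, ← AddChar.map_nsmul_eq_pow]
  simp

theorem coe_psiChar_pow (ψ : Additive (Gamma0 N) →+ ZMod p) (γ : Gamma0 N) :
    ((psiChar p ψ γ : ℂˣ) : ℂ) ^ p = 1 := by
  rw [← Units.val_pow_eq_pow_val, psiChar_pow, Units.val_one]

theorem psiChar_eq_one_iff (ψ : Additive (Gamma0 N) →+ ZMod p) (γ : Gamma0 N) :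
    psiChar p ψ γ = 1 ↔ ψ (Additive.ofMul γ) = 0 := by
  rw [psiChar_apply]
  constructor
  · intro h
    have h1 : ZMod.toCircle (ψ (Additive.ofMul γ)) = 1 := by
      have h2 := congrArg (fun u : ℂˣ => (u : ℂ)) h
      simp only [Circle.toUnits_apply, Units.val_mk0, Units.val_one] at h2
      exact Circle.ext h2
    rw [← AddChar.map_zero_eq_one (ZMod.toCircle (N := p))] at h1
    exact ZMod.injective_toCircle h1
  · intro h
    rw [h]
    simp

theorem psiChar_add (ψ ψ' : Additive (Gamma0 N) →+ ZMod p) :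
    psiChar p (ψ + ψ') = psiChar p ψ * psiChar p ψ' := by
  ext γ
  rw [MonoidHom.mul_apply, psiChar_apply, psiChar_apply, psiChar_apply, AddMonoidHom.add_apply,
    AddChar.map_add_eq_mul, map_mul]

theorem psiChar_zero : psiChar p (0 : Additive (Gamma0 N) →+ ZMod p) = 1 := by
  ext γ
  rw [psiChar_apply]
  simp

/-- Elements of `SL(2,ℤ)` with vanishing lower-left entry have trace `±2`. -/
theorem trace_sq_of_c_eq_zero (γ : SL(2, ℤ)) (h : γ 1 0 = 0) :
    ((γ : SL(2, ℤ)) : Matrix (Fin 2) (Fin 2) ℤ).trace ^ 2 = 4 := by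
  have hdet := Matrix.SpecialLinearGroup.det_coe γ
  rw [Matrix.det_fin_two] at hdet
  have h' : (γ : Matrix (Fin 2) (Fin 2) ℤ) 1 0 = 0 := h
  rw [h', mul_zero, sub_zero] at hdet
  rw [Matrix.trace_fin_two]
  rcases Int.eq_one_or_neg_one_of_mul_eq_one' hdet with ⟨h1, h2⟩ | ⟨h1, h2⟩
  · rw [h1, h2]; norm_num
  · rw [h1, h2]; norm_num

/-- (h2) for a parabolic `ψ` the character is trivial on the elements with lower-left
entry `0`. -/
theorem psiChar_of_c_eq_zero {ψ : Additive (Gamma0 N) →+ ZMod p}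
    (hψ : IsParabolicHom (Gamma0 N) ψ) (γ : Gamma0 N) (h : (γ : SL(2, ℤ)) 1 0 = 0) :
    psiChar p ψ γ = 1 :=
  (psiChar_eq_one_iff ψ γ).mpr (hψ γ (trace_sq_of_c_eq_zero _ h))

end Fermat.Agent.S29.H80
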