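/-
S29/S42 Program A (helper80): EXISTENCE OVER `ℂ`.  The `p`-th power of the `χ`-automorphic
function `chiAut` is a quotient of complex polynomials in the `j_d` (leaf (A1) + leaf (AA)).
-/
import Fermat.Agent.S29.H80.ChiAutomorphic
import Fermat.Agent.S29.H80.PsiChar
import Fermat.Agent.S29.H37.AnalyticAlgebraic

set_option autoImplicit false

noncomputable section

namespace Fermat.Agent.S29.H80

open UpperHalfPlane Filter Topology CongruenceSubgroup ModularForm ModularCurve.Period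
open scoped MatrixGroups Manifold
open Fermat.Agent.S29.H37

/-- Powers of functions bounded at `i∞` are bounded at `i∞`. -/
theorem isBoundedAtImInfty_pow {f : ℍ → ℂ} (hf : IsBoundedAtImInfty f) (n : ℕ) :
    IsBoundedAtImInfty (fun τ => f τ ^ n) := by
  rw [UpperHalfPlane.isBoundedAtImInfty_iff] at hf ⊢
  obtain ⟨M, A, h⟩ := hf
  refine ⟨M ^ n, A, fun z hz => ?_⟩
  rw [norm_pow]
  exact pow_le_pow_left₀ (norm_nonneg _) (h z hz) n

/-- **Existence over `ℂ`** (character form).  If `χ ^ p = 1`, the `p`-th power of `chiAut` is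
a quotient `Θ_ℂ(A) / Θ_ℂ(B)` of complex polynomials in the `j_d`, `d ∣ N`. -/
theorem exists_ThetaC_chiAut_pow (N : ℕ) [NeZero N] (p : ℕ) (χ : Gamma0 N →* ℂˣ)
    (h1 : ∀ γ : Gamma0 N, ‖((χ γ : ℂˣ) : ℂ)‖ = 1)
    (h2 : ∀ γ : Gamma0 N, (γ : SL(2, ℤ)) 1 0 = 0 → χ γ = 1)
    (hp : ∀ γ : Gamma0 N, ((χ γ : ℂˣ) : ℂ) ^ p = 1) :
    ∃ A B : MvPolynomial (N.divisors) ℂ, ThetaC N A ≠ 0 ∧ ThetaC N B ≠ 0 ∧
      ∀ τ : ℍ, chiAut N χ τ ^ p * ThetaC N B τ = ThetaC N A τ := by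
  have hW : MDiff (fun τ : ℍ => chiAut N χ τ ^ p) := (chiAut_mdifferentiable h1).pow p
  have hinv : ∀ γ ∈ Gamma0 N, ∀ τ : ℍ,
      (fun τ : ℍ => chiAut N χ τ ^ p) (γ • τ) = (fun τ : ℍ => chiAut N χ τ ^ p) τ := by
    intro γ hγ τ
    have h := chiAut_smul h2 (⟨γ, hγ⟩ : Gamma0 N) τ
    show chiAut N χ (γ • τ) ^ p = chiAut N χ τ ^ p
    have h' : chiAut N χ (γ • τ) = ((χ ⟨γ, hγ⟩ : ℂˣ) : ℂ) * chiAut N χ τ := h
    rw [h', mul_pow, hp, one_mul]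
  have hgrow : ∀ g : SL(2, ℤ), ∃ M : ℕ, IsBoundedAtImInfty
      (fun τ => ModularForm.discriminant τ ^ M * (fun τ : ℍ => chiAut N χ τ ^ p) (g • τ)) := by
    intro g
    refine ⟨p, ?_⟩
    have h := isBoundedAtImInfty_pow (isBoundedAtImInfty_discriminant_mul_chiAut h1 g) p
    have e : (fun τ : ℍ => (discriminant τ * chiAut N χ (g • τ)) ^ p)
        = fun τ => ModularForm.discriminant τ ^ p * (fun τ : ℍ => chiAut N χ τ ^ p) (g • τ) := by
      funext τ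
      simp only [mul_pow]
    rwa [e] at h
  obtain ⟨A, B, hB, hAB⟩ := exists_ThetaC_of_invariant N hW hinv hgrow
  refine ⟨A, B, ?_, hB, hAB⟩
  -- `Θ_ℂ(A) ≠ 0`: at a common non-zero of `chiAut` and `Θ_ℂ(B)`
  obtain ⟨A₀, hA₀⟩ := exists_chiAut_ne_zero h1 h2
  have hχ0 : chiAut N χ ≠ 0 := by
    intro h0
    have hz : (0 : ℝ) < max A₀ 1 := lt_of_lt_of_le one_pos (le_max_right _ _)
    have := hA₀ ⟨⟨0, max A₀ 1⟩, hz⟩ (le_max_left _ _)
    apply this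
    rw [h0]
    rfl
  obtain ⟨τ, hτ⟩ := exists_forall_ne_zero (ι := Bool)
    (fun b => if b then chiAut N χ else ThetaC N B)
    (fun b => by
      cases b
      · exact mdiff_ThetaC N B
      · exact chiAut_mdifferentiable h1)
    (fun b => by
      cases b
      · exact hB
      · exact hχ0)
  have ht1 : chiAut N χ τ ≠ 0 := hτ true
  have ht2 : ThetaC N B τ ≠ 0 := hτ false
  intro h0
  have := hAB τ
  rw [h0] at this
  exact mul_ne_zero (pow_ne_zero p ht1) ht2 this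

/-- **Existence over `ℂ`** (`ψ`-form).  For a parabolic homomorphism `ψ : Γ₀(N) → ℤ/p` there
is a holomorphic function `G` on `ℍ` with multiplier `ζ_p^ψ`, of moderate growth at all
cusps, whose `p`-th power is a non-zero quotient of complex polynomials in the `j_d`. -/
theorem exists_ThetaC_of_psi (N : ℕ) [NeZero N] (p : ℕ) [NeZero p]
    (ψ : Additive (Gamma0 N) →+ ZMod p) (hψ : IsParabolicHom (Gamma0 N) ψ) :
    ∃ (G : ℍ → ℂ) (A B : MvPolynomial (N.divisors) ℂ), MDiff G ∧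
      (∀ (γ : Gamma0 N) (τ : ℍ),
        G ((γ : SL(2, ℤ)) • τ) = ((psiChar p ψ γ : ℂˣ) : ℂ) * G τ) ∧
      (∀ δ : SL(2, ℤ), IsBoundedAtImInfty (fun τ : ℍ => discriminant τ * G (δ • τ))) ∧
      (∃ A₀ : ℝ, ∀ τ : ℍ, A₀ ≤ τ.im → G τ ≠ 0) ∧
      ThetaC N A ≠ 0 ∧ ThetaC N B ≠ 0 ∧ ∀ τ : ℍ, G τ ^ p * ThetaC N B τ = ThetaC N A τ := by
  have h1 : ∀ γ : Gamma0 N, ‖((psiChar p ψ γ : ℂˣ) : ℂ)‖ = 1 := norm_psiChar ψ
  have h2 : ∀ γ : Gamma0 N, (γ : SL(2, ℤ)) 1 0 = 0 → psiChar p ψ γ = 1 :=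
    psiChar_of_c_eq_zero hψ
  obtain ⟨A, B, hA, hB, hAB⟩ :=
    exists_ThetaC_chiAut_pow N p (psiChar p ψ) h1 h2 (coe_psiChar_pow ψ)
  exact ⟨chiAut N (psiChar p ψ), A, B, chiAut_mdifferentiable h1, chiAut_smul h2,
    isBoundedAtImInfty_discriminant_mul_chiAut h1, exists_chiAut_ne_zero h1 h2, hA, hB, hAB⟩

end Fermat.Agent.S29.H80
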